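import Fermat.Agent.S52.Level5.InvHc

/-!
# S52 / Level5: `kH` along the covariant line
-/

namespace Fermat.Agent.S52

variable {R : Type*} [CommRing R]

set_option maxHeartbeats 4000000 in
theorem hH_line (a b t : R) :
    hH (a * (1 + t * (a^2 + 66*a*b - 11*b^2))^5) (b * (1 - t * (11*a^2 + 66*a*b - b^2))^5)
      = famA (hH a b) (hT a b) t := by
  obtain ⟨x, hx⟩ : ∃ x, x = a^2 + 66*a*b - 11*b^2 := ⟨_, rfl⟩
  obtain ⟨y, hy⟩ : ∃ y, y = 11*a^2 + 66*a*b - b^2 := ⟨_, rfl⟩
  rw [← hx, ← hy]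
  have c0 := hH_coef0 a b x y hx hy
  have c1 := hH_coef1 a b x y hx hy
  have c2 := hH_coef2 a b x y hx hy
  have c3 := hH_coef3 a b x y hx hy
  have c4 := hH_coef4 a b x y hx hy
  have c5 := hH_coef5 a b x y hx hy
  have c6 := hH_coef6 a b x y hx hy
  have c7 := hH_coef7 a b x y hx hy
  have c8 := hH_coef8 a b x y hx hy
  have c9 := hH_coef9 a b x y hx hy
  have c10 := hH_coef10 a b x y hx hy
  have c11 := hH_coef11 a b x y hx hy
  have c12 := hH_coef12 a b x y hx hy
  have c13 := hH_coef13 a b x y hx hy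
  have c14 := hH_coef14 a b x y hx hy
  have c15 := hH_coef15 a b x y hx hy
  have c16 := hH_coef16 a b x y hx hy
  have c17 := hH_coef17 a b x y hx hy
  have c18 := hH_coef18 a b x y hx hy
  have c19 := hH_coef19 a b x y hx hy
  have c20 := hH_coef20 a b x y hx hy
  simp only [famA, Finset.sum_range_succ, Finset.sum_range_zero]
  generalize famAc (hH a b) (hT a b) 0 = B0 at *
  generalize famAc (hH a b) (hT a b) 1 = B1 at *
  generalize famAc (hH a b) (hT a b) 2 = B2 at *
  generalize famAc (hH a b) (hT a b) 3 = B3 at *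
  generalize famAc (hH a b) (hT a b) 4 = B4 at *
  generalize famAc (hH a b) (hT a b) 5 = B5 at *
  generalize famAc (hH a b) (hT a b) 6 = B6 at *
  generalize famAc (hH a b) (hT a b) 7 = B7 at *
  generalize famAc (hH a b) (hT a b) 8 = B8 at *
  generalize famAc (hH a b) (hT a b) 9 = B9 at *
  generalize famAc (hH a b) (hT a b) 10 = B10 at *
  generalize famAc (hH a b) (hT a b) 11 = B11 at *
  generalize famAc (hH a b) (hT a b) 12 = B12 at *
  generalize famAc (hH a b) (hT a b) 13 = B13 at *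
  generalize famAc (hH a b) (hT a b) 14 = B14 at *
  generalize famAc (hH a b) (hT a b) 15 = B15 at *
  generalize famAc (hH a b) (hT a b) 16 = B16 at *
  generalize famAc (hH a b) (hT a b) 17 = B17 at *
  generalize famAc (hH a b) (hT a b) 18 = B18 at *
  generalize famAc (hH a b) (hT a b) 19 = B19 at *
  generalize famAc (hH a b) (hT a b) 20 = B20 at *
  clear hx hy
  unfold hH
  linear_combination c0 + t * c1 + t^2 * c2 + t^3 * c3 + t^4 * c4 + t^5 * c5 + t^6 * c6 + t^7 * c7 + t^8 * c8 + t^9 * c9 + t^10 * c10 + t^11 * c11 + t^12 * c12 + t^13 * c13 + t^14 * c14 + t^15 * c15 + t^16 * c16 + t^17 * c17 + t^18 * c18 + t^19 * c19 + t^20 * c20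

/-- `kH` along the covariant line. -/
theorem kH_line (u v t : R) :
    kH (lineU u v t) (lineV u v t) = famA (kH u v) (kT u v) t := by
  rw [kH_eq_hH, lineU_eq, lineV_eq, mul_pow, mul_pow, hH_line, ← kH_eq_hH, ← kT_eq_hT]

end Fermat.Agent.S52
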