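import Fermat.Agent.S52.Level5.InvDefs

/-!
# S52 / Level5: coefficients of `kH` along the covariant line (machine generated)
-/

namespace Fermat.Agent.S52

variable {R : Type*} [CommRing R]

theorem hH_coef0 (a b x y : R) (hx : x = a^2 + 66*a*b - 11*b^2)
    (hy : y = 11*a^2 + 66*a*b - b^2) :
    (1) * a^4 * (1)
      + (-228) * a^3 * b^1 * (1)
      + (494) * a^2 * b^2 * (1)
      + (228) * a^1 * b^3 * (1)
      + (1) * b^4 * (1)
      = famAc (hH a b) (hT a b) 0 := by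
  subst hx hy
  simp only [famAc, hH, hT]
  ring

theorem hH_coef1 (a b x y : R) (hx : x = a^2 + 66*a*b - 11*b^2)
    (hy : y = 11*a^2 + 66*a*b - b^2) :
    (1) * a^4 * (20 * x^1)
      + (-228) * a^3 * b^1 * (-5 * y^1 + 15 * x^1)
      + (494) * a^2 * b^2 * (-10 * y^1 + 10 * x^1)
      + (228) * a^1 * b^3 * (-15 * y^1 + 5 * x^1)
      + (1) * b^4 * (-20 * y^1)
      = famAc (hH a b) (hT a b) 1 := by
  subst hx hy
  simp only [famAc, hH, hT]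
  ring

theorem hH_coef2 (a b x y : R) (hx : x = a^2 + 66*a*b - 11*b^2)
    (hy : y = 11*a^2 + 66*a*b - b^2) :
    (1) * a^4 * (190 * x^2)
      + (-228) * a^3 * b^1 * (10 * y^2 - 75 * x^1 * y^1 + 105 * x^2)
      + (494) * a^2 * b^2 * (45 * y^2 - 100 * x^1 * y^1 + 45 * x^2)
      + (228) * a^1 * b^3 * (105 * y^2 - 75 * x^1 * y^1 + 10 * x^2)
      + (1) * b^4 * (190 * y^2)
      = famAc (hH a b) (hT a b) 2 := by
  subst hx hy
  simp only [famAc, hH, hT]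
  ring

theorem hH_coef3 (a b x y : R) (hx : x = a^2 + 66*a*b - 11*b^2)
    (hy : y = 11*a^2 + 66*a*b - b^2) :
    (1) * a^4 * (1140 * x^3)
      + (-228) * a^3 * b^1 * (-10 * y^3 + 150 * x^1 * y^2 - 525 * x^2 * y^1 + 455 * x^3)
      + (494) * a^2 * b^2 * (-120 * y^3 + 450 * x^1 * y^2 - 450 * x^2 * y^1 + 120 * x^3)
      + (228) * a^1 * b^3 * (-455 * y^3 + 525 * x^1 * y^2 - 150 * x^2 * y^1 + 10 * x^3)
      + (1) * b^4 * (-1140 * y^3)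
      = famAc (hH a b) (hT a b) 3 := by
  subst hx hy
  simp only [famAc, hH, hT]
  ring

theorem hH_coef4 (a b x y : R) (hx : x = a^2 + 66*a*b - 11*b^2)
    (hy : y = 11*a^2 + 66*a*b - b^2) :
    (1) * a^4 * (4845 * x^4)
      + (-228) * a^3 * b^1 * (5 * y^4 - 150 * x^1 * y^3 + 1050 * x^2 * y^2 - 2275 * x^3 * y^1 + 1365 * x^4)
      + (494) * a^2 * b^2 * (210 * y^4 - 1200 * x^1 * y^3 + 2025 * x^2 * y^2 - 1200 * x^3 * y^1 + 210 * x^4)
      + (228) * a^1 * b^3 * (1365 * y^4 - 2275 * x^1 * y^3 + 1050 * x^2 * y^2 - 150 * x^3 * y^1 + 5 * x^4)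
      + (1) * b^4 * (4845 * y^4)
      = famAc (hH a b) (hT a b) 4 := by
  subst hx hy
  simp only [famAc, hH, hT]
  ring

theorem hH_coef5 (a b x y : R) (hx : x = a^2 + 66*a*b - 11*b^2)
    (hy : y = 11*a^2 + 66*a*b - b^2) :
    (1) * a^4 * (15504 * x^5)
      + (-228) * a^3 * b^1 * (-1 * y^5 + 75 * x^1 * y^4 - 1050 * x^2 * y^3 + 4550 * x^3 * y^2 - 6825 * x^4 * y^1 + 3003 * x^5)
      + (494) * a^2 * b^2 * (-252 * y^5 + 2100 * x^1 * y^4 - 5400 * x^2 * y^3 + 5400 * x^3 * y^2 - 2100 * x^4 * y^1 + 252 * x^5)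
      + (228) * a^1 * b^3 * (-3003 * y^5 + 6825 * x^1 * y^4 - 4550 * x^2 * y^3 + 1050 * x^3 * y^2 - 75 * x^4 * y^1 + 1 * x^5)
      + (1) * b^4 * (-15504 * y^5)
      = famAc (hH a b) (hT a b) 5 := by
  subst hx hy
  simp only [famAc, hH, hT]
  ring

theorem hH_coef6 (a b x y : R) (hx : x = a^2 + 66*a*b - 11*b^2)
    (hy : y = 11*a^2 + 66*a*b - b^2) :
    (1) * a^4 * (38760 * x^6)
      + (-228) * a^3 * b^1 * (-15 * x^1 * y^5 + 525 * x^2 * y^4 - 4550 * x^3 * y^3 + 13650 * x^4 * y^2 - 15015 * x^5 * y^1 + 5005 * x^6)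
      + (494) * a^2 * b^2 * (210 * y^6 - 2520 * x^1 * y^5 + 9450 * x^2 * y^4 - 14400 * x^3 * y^3 + 9450 * x^4 * y^2 - 2520 * x^5 * y^1 + 210 * x^6)
      + (228) * a^1 * b^3 * (5005 * y^6 - 15015 * x^1 * y^5 + 13650 * x^2 * y^4 - 4550 * x^3 * y^3 + 525 * x^4 * y^2 - 15 * x^5 * y^1)
      + (1) * b^4 * (38760 * y^6)
      = famAc (hH a b) (hT a b) 6 := by
  subst hx hy
  simp only [famAc, hH, hT]
  ring

theorem hH_coef7 (a b x y : R) (hx : x = a^2 + 66*a*b - 11*b^2)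
    (hy : y = 11*a^2 + 66*a*b - b^2) :
    (1) * a^4 * (77520 * x^7)
      + (-228) * a^3 * b^1 * (-105 * x^2 * y^5 + 2275 * x^3 * y^4 - 13650 * x^4 * y^3 + 30030 * x^5 * y^2 - 25025 * x^6 * y^1 + 6435 * x^7)
      + (494) * a^2 * b^2 * (-120 * y^7 + 2100 * x^1 * y^6 - 11340 * x^2 * y^5 + 25200 * x^3 * y^4 - 25200 * x^4 * y^3 + 11340 * x^5 * y^2 - 2100 * x^6 * y^1 + 120 * x^7)
      + (228) * a^1 * b^3 * (-6435 * y^7 + 25025 * x^1 * y^6 - 30030 * x^2 * y^5 + 13650 * x^3 * y^4 - 2275 * x^4 * y^3 + 105 * x^5 * y^2)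
      + (1) * b^4 * (-77520 * y^7)
      = famAc (hH a b) (hT a b) 7 := by
  subst hx hy
  simp only [famAc, hH, hT]
  ring

theorem hH_coef8 (a b x y : R) (hx : x = a^2 + 66*a*b - 11*b^2)
    (hy : y = 11*a^2 + 66*a*b - b^2) :
    (1) * a^4 * (125970 * x^8)
      + (-228) * a^3 * b^1 * (-455 * x^3 * y^5 + 6825 * x^4 * y^4 - 30030 * x^5 * y^3 + 50050 * x^6 * y^2 - 32175 * x^7 * y^1 + 6435 * x^8)
      + (494) * a^2 * b^2 * (45 * y^8 - 1200 * x^1 * y^7 + 9450 * x^2 * y^6 - 30240 * x^3 * y^5 + 44100 * x^4 * y^4 - 30240 * x^5 * y^3 + 9450 * x^6 * y^2 - 1200 * x^7 * y^1 + 45 * x^8)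
      + (228) * a^1 * b^3 * (6435 * y^8 - 32175 * x^1 * y^7 + 50050 * x^2 * y^6 - 30030 * x^3 * y^5 + 6825 * x^4 * y^4 - 455 * x^5 * y^3)
      + (1) * b^4 * (125970 * y^8)
      = famAc (hH a b) (hT a b) 8 := by
  subst hx hy
  simp only [famAc, hH, hT]
  ring

theorem hH_coef9 (a b x y : R) (hx : x = a^2 + 66*a*b - 11*b^2)
    (hy : y = 11*a^2 + 66*a*b - b^2) :
    (1) * a^4 * (167960 * x^9)
      + (-228) * a^3 * b^1 * (-1365 * x^4 * y^5 + 15015 * x^5 * y^4 - 50050 * x^6 * y^3 + 64350 * x^7 * y^2 - 32175 * x^8 * y^1 + 5005 * x^9)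
      + (494) * a^2 * b^2 * (-10 * y^9 + 450 * x^1 * y^8 - 5400 * x^2 * y^7 + 25200 * x^3 * y^6 - 52920 * x^4 * y^5 + 52920 * x^5 * y^4 - 25200 * x^6 * y^3 + 5400 * x^7 * y^2 - 450 * x^8 * y^1 + 10 * x^9)
      + (228) * a^1 * b^3 * (-5005 * y^9 + 32175 * x^1 * y^8 - 64350 * x^2 * y^7 + 50050 * x^3 * y^6 - 15015 * x^4 * y^5 + 1365 * x^5 * y^4)
      + (1) * b^4 * (-167960 * y^9)
      = famAc (hH a b) (hT a b) 9 := by
  subst hx hy
  simp only [famAc, hH, hT]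
  ring

theorem hH_coef10 (a b x y : R) (hx : x = a^2 + 66*a*b - 11*b^2)
    (hy : y = 11*a^2 + 66*a*b - b^2) :
    (1) * a^4 * (184756 * x^10)
      + (-228) * a^3 * b^1 * (-3003 * x^5 * y^5 + 25025 * x^6 * y^4 - 64350 * x^7 * y^3 + 64350 * x^8 * y^2 - 25025 * x^9 * y^1 + 3003 * x^10)
      + (494) * a^2 * b^2 * (1 * y^10 - 100 * x^1 * y^9 + 2025 * x^2 * y^8 - 14400 * x^3 * y^7 + 44100 * x^4 * y^6 - 63504 * x^5 * y^5 + 44100 * x^6 * y^4 - 14400 * x^7 * y^3 + 2025 * x^8 * y^2 - 100 * x^9 * y^1 + 1 * x^10)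
      + (228) * a^1 * b^3 * (3003 * y^10 - 25025 * x^1 * y^9 + 64350 * x^2 * y^8 - 64350 * x^3 * y^7 + 25025 * x^4 * y^6 - 3003 * x^5 * y^5)
      + (1) * b^4 * (184756 * y^10)
      = famAc (hH a b) (hT a b) 10 := by
  subst hx hy
  simp only [famAc, hH, hT]
  ring

theorem hH_coef11 (a b x y : R) (hx : x = a^2 + 66*a*b - 11*b^2)
    (hy : y = 11*a^2 + 66*a*b - b^2) :
    (1) * a^4 * (167960 * x^11)
      + (-228) * a^3 * b^1 * (-5005 * x^6 * y^5 + 32175 * x^7 * y^4 - 64350 * x^8 * y^3 + 50050 * x^9 * y^2 - 15015 * x^10 * y^1 + 1365 * x^11)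
      + (494) * a^2 * b^2 * (10 * x^1 * y^10 - 450 * x^2 * y^9 + 5400 * x^3 * y^8 - 25200 * x^4 * y^7 + 52920 * x^5 * y^6 - 52920 * x^6 * y^5 + 25200 * x^7 * y^4 - 5400 * x^8 * y^3 + 450 * x^9 * y^2 - 10 * x^10 * y^1)
      + (228) * a^1 * b^3 * (-1365 * y^11 + 15015 * x^1 * y^10 - 50050 * x^2 * y^9 + 64350 * x^3 * y^8 - 32175 * x^4 * y^7 + 5005 * x^5 * y^6)
      + (1) * b^4 * (-167960 * y^11)
      = famAc (hH a b) (hT a b) 11 := by
  subst hx hy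
  simp only [famAc, hH, hT]
  ring

theorem hH_coef12 (a b x y : R) (hx : x = a^2 + 66*a*b - 11*b^2)
    (hy : y = 11*a^2 + 66*a*b - b^2) :
    (1) * a^4 * (125970 * x^12)
      + (-228) * a^3 * b^1 * (-6435 * x^7 * y^5 + 32175 * x^8 * y^4 - 50050 * x^9 * y^3 + 30030 * x^10 * y^2 - 6825 * x^11 * y^1 + 455 * x^12)
      + (494) * a^2 * b^2 * (45 * x^2 * y^10 - 1200 * x^3 * y^9 + 9450 * x^4 * y^8 - 30240 * x^5 * y^7 + 44100 * x^6 * y^6 - 30240 * x^7 * y^5 + 9450 * x^8 * y^4 - 1200 * x^9 * y^3 + 45 * x^10 * y^2)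
      + (228) * a^1 * b^3 * (455 * y^12 - 6825 * x^1 * y^11 + 30030 * x^2 * y^10 - 50050 * x^3 * y^9 + 32175 * x^4 * y^8 - 6435 * x^5 * y^7)
      + (1) * b^4 * (125970 * y^12)
      = famAc (hH a b) (hT a b) 12 := by
  subst hx hy
  simp only [famAc, hH, hT]
  ring

theorem hH_coef13 (a b x y : R) (hx : x = a^2 + 66*a*b - 11*b^2)
    (hy : y = 11*a^2 + 66*a*b - b^2) :
    (1) * a^4 * (77520 * x^13)
      + (-228) * a^3 * b^1 * (-6435 * x^8 * y^5 + 25025 * x^9 * y^4 - 30030 * x^10 * y^3 + 13650 * x^11 * y^2 - 2275 * x^12 * y^1 + 105 * x^13)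
      + (494) * a^2 * b^2 * (120 * x^3 * y^10 - 2100 * x^4 * y^9 + 11340 * x^5 * y^8 - 25200 * x^6 * y^7 + 25200 * x^7 * y^6 - 11340 * x^8 * y^5 + 2100 * x^9 * y^4 - 120 * x^10 * y^3)
      + (228) * a^1 * b^3 * (-105 * y^13 + 2275 * x^1 * y^12 - 13650 * x^2 * y^11 + 30030 * x^3 * y^10 - 25025 * x^4 * y^9 + 6435 * x^5 * y^8)
      + (1) * b^4 * (-77520 * y^13)
      = famAc (hH a b) (hT a b) 13 := by
  subst hx hy
  simp only [famAc, hH, hT]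
  ring

theorem hH_coef14 (a b x y : R) (hx : x = a^2 + 66*a*b - 11*b^2)
    (hy : y = 11*a^2 + 66*a*b - b^2) :
    (1) * a^4 * (38760 * x^14)
      + (-228) * a^3 * b^1 * (-5005 * x^9 * y^5 + 15015 * x^10 * y^4 - 13650 * x^11 * y^3 + 4550 * x^12 * y^2 - 525 * x^13 * y^1 + 15 * x^14)
      + (494) * a^2 * b^2 * (210 * x^4 * y^10 - 2520 * x^5 * y^9 + 9450 * x^6 * y^8 - 14400 * x^7 * y^7 + 9450 * x^8 * y^6 - 2520 * x^9 * y^5 + 210 * x^10 * y^4)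
      + (228) * a^1 * b^3 * (15 * y^14 - 525 * x^1 * y^13 + 4550 * x^2 * y^12 - 13650 * x^3 * y^11 + 15015 * x^4 * y^10 - 5005 * x^5 * y^9)
      + (1) * b^4 * (38760 * y^14)
      = famAc (hH a b) (hT a b) 14 := by
  subst hx hy
  simp only [famAc, hH, hT]
  ring

theorem hH_coef15 (a b x y : R) (hx : x = a^2 + 66*a*b - 11*b^2)
    (hy : y = 11*a^2 + 66*a*b - b^2) :
    (1) * a^4 * (15504 * x^15)
      + (-228) * a^3 * b^1 * (-3003 * x^10 * y^5 + 6825 * x^11 * y^4 - 4550 * x^12 * y^3 + 1050 * x^13 * y^2 - 75 * x^14 * y^1 + 1 * x^15)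
      + (494) * a^2 * b^2 * (252 * x^5 * y^10 - 2100 * x^6 * y^9 + 5400 * x^7 * y^8 - 5400 * x^8 * y^7 + 2100 * x^9 * y^6 - 252 * x^10 * y^5)
      + (228) * a^1 * b^3 * (-1 * y^15 + 75 * x^1 * y^14 - 1050 * x^2 * y^13 + 4550 * x^3 * y^12 - 6825 * x^4 * y^11 + 3003 * x^5 * y^10)
      + (1) * b^4 * (-15504 * y^15)
      = famAc (hH a b) (hT a b) 15 := by
  subst hx hy
  simp only [famAc, hH, hT]
  ring

theorem hH_coef16 (a b x y : R) (hx : x = a^2 + 66*a*b - 11*b^2)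
    (hy : y = 11*a^2 + 66*a*b - b^2) :
    (1) * a^4 * (4845 * x^16)
      + (-228) * a^3 * b^1 * (-1365 * x^11 * y^5 + 2275 * x^12 * y^4 - 1050 * x^13 * y^3 + 150 * x^14 * y^2 - 5 * x^15 * y^1)
      + (494) * a^2 * b^2 * (210 * x^6 * y^10 - 1200 * x^7 * y^9 + 2025 * x^8 * y^8 - 1200 * x^9 * y^7 + 210 * x^10 * y^6)
      + (228) * a^1 * b^3 * (-5 * x^1 * y^15 + 150 * x^2 * y^14 - 1050 * x^3 * y^13 + 2275 * x^4 * y^12 - 1365 * x^5 * y^11)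
      + (1) * b^4 * (4845 * y^16)
      = famAc (hH a b) (hT a b) 16 := by
  subst hx hy
  simp only [famAc, hH, hT]
  ring

theorem hH_coef17 (a b x y : R) (hx : x = a^2 + 66*a*b - 11*b^2)
    (hy : y = 11*a^2 + 66*a*b - b^2) :
    (1) * a^4 * (1140 * x^17)
      + (-228) * a^3 * b^1 * (-455 * x^12 * y^5 + 525 * x^13 * y^4 - 150 * x^14 * y^3 + 10 * x^15 * y^2)
      + (494) * a^2 * b^2 * (120 * x^7 * y^10 - 450 * x^8 * y^9 + 450 * x^9 * y^8 - 120 * x^10 * y^7)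
      + (228) * a^1 * b^3 * (-10 * x^2 * y^15 + 150 * x^3 * y^14 - 525 * x^4 * y^13 + 455 * x^5 * y^12)
      + (1) * b^4 * (-1140 * y^17)
      = famAc (hH a b) (hT a b) 17 := by
  subst hx hy
  simp only [famAc, hH, hT]
  ring

theorem hH_coef18 (a b x y : R) (hx : x = a^2 + 66*a*b - 11*b^2)
    (hy : y = 11*a^2 + 66*a*b - b^2) :
    (1) * a^4 * (190 * x^18)
      + (-228) * a^3 * b^1 * (-105 * x^13 * y^5 + 75 * x^14 * y^4 - 10 * x^15 * y^3)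
      + (494) * a^2 * b^2 * (45 * x^8 * y^10 - 100 * x^9 * y^9 + 45 * x^10 * y^8)
      + (228) * a^1 * b^3 * (-10 * x^3 * y^15 + 75 * x^4 * y^14 - 105 * x^5 * y^13)
      + (1) * b^4 * (190 * y^18)
      = famAc (hH a b) (hT a b) 18 := by
  subst hx hy
  simp only [famAc, hH, hT]
  ring

theorem hH_coef19 (a b x y : R) (hx : x = a^2 + 66*a*b - 11*b^2)
    (hy : y = 11*a^2 + 66*a*b - b^2) :
    (1) * a^4 * (20 * x^19)
      + (-228) * a^3 * b^1 * (-15 * x^14 * y^5 + 5 * x^15 * y^4)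
      + (494) * a^2 * b^2 * (10 * x^9 * y^10 - 10 * x^10 * y^9)
      + (228) * a^1 * b^3 * (-5 * x^4 * y^15 + 15 * x^5 * y^14)
      + (1) * b^4 * (-20 * y^19)
      = famAc (hH a b) (hT a b) 19 := by
  subst hx hy
  simp only [famAc, hH, hT]
  ring

theorem hH_coef20 (a b x y : R) (hx : x = a^2 + 66*a*b - 11*b^2)
    (hy : y = 11*a^2 + 66*a*b - b^2) :
    (1) * a^4 * (1 * x^20)
      + (-228) * a^3 * b^1 * (-1 * x^15 * y^5)
      + (494) * a^2 * b^2 * (1 * x^10 * y^10)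
      + (228) * a^1 * b^3 * (-1 * x^5 * y^15)
      + (1) * b^4 * (1 * y^20)
      = famAc (hH a b) (hT a b) 20 := by
  subst hx hy
  simp only [famAc, hH, hT]
  ring

end Fermat.Agent.S52
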