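import Fermat.Agent.S52.Level5.InvDefs

/-!
# S52 / Level5: coefficients of `kT` along the covariant line (machine generated)
-/

namespace Fermat.Agent.S52

variable {R : Type*} [CommRing R]

theorem hT_coef0 (a b x y : R) (hx : x = a^2 + 66*a*b - 11*b^2)
    (hy : y = 11*a^2 + 66*a*b - b^2) :
    (1) * a^6 * (1)
      + (522) * a^5 * b^1 * (1)
      + (-10005) * a^4 * b^2 * (1)
      + (-10005) * a^2 * b^4 * (1)
      + (-522) * a^1 * b^5 * (1)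
      + (1) * b^6 * (1)
      = famBc (hH a b) (hT a b) 0 := by
  subst hx hy
  simp only [famBc, hH, hT]
  ring

theorem hT_coef1 (a b x y : R) (hx : x = a^2 + 66*a*b - 11*b^2)
    (hy : y = 11*a^2 + 66*a*b - b^2) :
    (1) * a^6 * (30 * x^1)
      + (522) * a^5 * b^1 * (-5 * y^1 + 25 * x^1)
      + (-10005) * a^4 * b^2 * (-10 * y^1 + 20 * x^1)
      + (-10005) * a^2 * b^4 * (-20 * y^1 + 10 * x^1)
      + (-522) * a^1 * b^5 * (-25 * y^1 + 5 * x^1)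
      + (1) * b^6 * (-30 * y^1)
      = famBc (hH a b) (hT a b) 1 := by
  subst hx hy
  simp only [famBc, hH, hT]
  ring

theorem hT_coef2 (a b x y : R) (hx : x = a^2 + 66*a*b - 11*b^2)
    (hy : y = 11*a^2 + 66*a*b - b^2) :
    (1) * a^6 * (435 * x^2)
      + (522) * a^5 * b^1 * (10 * y^2 - 125 * x^1 * y^1 + 300 * x^2)
      + (-10005) * a^4 * b^2 * (45 * y^2 - 200 * x^1 * y^1 + 190 * x^2)
      + (-10005) * a^2 * b^4 * (190 * y^2 - 200 * x^1 * y^1 + 45 * x^2)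
      + (-522) * a^1 * b^5 * (300 * y^2 - 125 * x^1 * y^1 + 10 * x^2)
      + (1) * b^6 * (435 * y^2)
      = famBc (hH a b) (hT a b) 2 := by
  subst hx hy
  simp only [famBc, hH, hT]
  ring

theorem hT_coef3 (a b x y : R) (hx : x = a^2 + 66*a*b - 11*b^2)
    (hy : y = 11*a^2 + 66*a*b - b^2) :
    (1) * a^6 * (4060 * x^3)
      + (522) * a^5 * b^1 * (-10 * y^3 + 250 * x^1 * y^2 - 1500 * x^2 * y^1 + 2300 * x^3)
      + (-10005) * a^4 * b^2 * (-120 * y^3 + 900 * x^1 * y^2 - 1900 * x^2 * y^1 + 1140 * x^3)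
      + (-10005) * a^2 * b^4 * (-1140 * y^3 + 1900 * x^1 * y^2 - 900 * x^2 * y^1 + 120 * x^3)
      + (-522) * a^1 * b^5 * (-2300 * y^3 + 1500 * x^1 * y^2 - 250 * x^2 * y^1 + 10 * x^3)
      + (1) * b^6 * (-4060 * y^3)
      = famBc (hH a b) (hT a b) 3 := by
  subst hx hy
  simp only [famBc, hH, hT]
  ring

theorem hT_coef4 (a b x y : R) (hx : x = a^2 + 66*a*b - 11*b^2)
    (hy : y = 11*a^2 + 66*a*b - b^2) :
    (1) * a^6 * (27405 * x^4)
      + (522) * a^5 * b^1 * (5 * y^4 - 250 * x^1 * y^3 + 3000 * x^2 * y^2 - 11500 * x^3 * y^1 + 12650 * x^4)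
      + (-10005) * a^4 * b^2 * (210 * y^4 - 2400 * x^1 * y^3 + 8550 * x^2 * y^2 - 11400 * x^3 * y^1 + 4845 * x^4)
      + (-10005) * a^2 * b^4 * (4845 * y^4 - 11400 * x^1 * y^3 + 8550 * x^2 * y^2 - 2400 * x^3 * y^1 + 210 * x^4)
      + (-522) * a^1 * b^5 * (12650 * y^4 - 11500 * x^1 * y^3 + 3000 * x^2 * y^2 - 250 * x^3 * y^1 + 5 * x^4)
      + (1) * b^6 * (27405 * y^4)
      = famBc (hH a b) (hT a b) 4 := by
  subst hx hy
  simp only [famBc, hH, hT]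
  ring

theorem hT_coef5 (a b x y : R) (hx : x = a^2 + 66*a*b - 11*b^2)
    (hy : y = 11*a^2 + 66*a*b - b^2) :
    (1) * a^6 * (142506 * x^5)
      + (522) * a^5 * b^1 * (-1 * y^5 + 125 * x^1 * y^4 - 3000 * x^2 * y^3 + 23000 * x^3 * y^2 - 63250 * x^4 * y^1 + 53130 * x^5)
      + (-10005) * a^4 * b^2 * (-252 * y^5 + 4200 * x^1 * y^4 - 22800 * x^2 * y^3 + 51300 * x^3 * y^2 - 48450 * x^4 * y^1 + 15504 * x^5)
      + (-10005) * a^2 * b^4 * (-15504 * y^5 + 48450 * x^1 * y^4 - 51300 * x^2 * y^3 + 22800 * x^3 * y^2 - 4200 * x^4 * y^1 + 252 * x^5)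
      + (-522) * a^1 * b^5 * (-53130 * y^5 + 63250 * x^1 * y^4 - 23000 * x^2 * y^3 + 3000 * x^3 * y^2 - 125 * x^4 * y^1 + 1 * x^5)
      + (1) * b^6 * (-142506 * y^5)
      = famBc (hH a b) (hT a b) 5 := by
  subst hx hy
  simp only [famBc, hH, hT]
  ring

theorem hT_coef6 (a b x y : R) (hx : x = a^2 + 66*a*b - 11*b^2)
    (hy : y = 11*a^2 + 66*a*b - b^2) :
    (1) * a^6 * (593775 * x^6)
      + (522) * a^5 * b^1 * (-25 * x^1 * y^5 + 1500 * x^2 * y^4 - 23000 * x^3 * y^3 + 126500 * x^4 * y^2 - 265650 * x^5 * y^1 + 177100 * x^6)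
      + (-10005) * a^4 * b^2 * (210 * y^6 - 5040 * x^1 * y^5 + 39900 * x^2 * y^4 - 136800 * x^3 * y^3 + 218025 * x^4 * y^2 - 155040 * x^5 * y^1 + 38760 * x^6)
      + (-10005) * a^2 * b^4 * (38760 * y^6 - 155040 * x^1 * y^5 + 218025 * x^2 * y^4 - 136800 * x^3 * y^3 + 39900 * x^4 * y^2 - 5040 * x^5 * y^1 + 210 * x^6)
      + (-522) * a^1 * b^5 * (177100 * y^6 - 265650 * x^1 * y^5 + 126500 * x^2 * y^4 - 23000 * x^3 * y^3 + 1500 * x^4 * y^2 - 25 * x^5 * y^1)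
      + (1) * b^6 * (593775 * y^6)
      = famBc (hH a b) (hT a b) 6 := by
  subst hx hy
  simp only [famBc, hH, hT]
  ring

theorem hT_coef7 (a b x y : R) (hx : x = a^2 + 66*a*b - 11*b^2)
    (hy : y = 11*a^2 + 66*a*b - b^2) :
    (1) * a^6 * (2035800 * x^7)
      + (522) * a^5 * b^1 * (-300 * x^2 * y^5 + 11500 * x^3 * y^4 - 126500 * x^4 * y^3 + 531300 * x^5 * y^2 - 885500 * x^6 * y^1 + 480700 * x^7)
      + (-10005) * a^4 * b^2 * (-120 * y^7 + 4200 * x^1 * y^6 - 47880 * x^2 * y^5 + 239400 * x^3 * y^4 - 581400 * x^4 * y^3 + 697680 * x^5 * y^2 - 387600 * x^6 * y^1 + 77520 * x^7)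
      + (-10005) * a^2 * b^4 * (-77520 * y^7 + 387600 * x^1 * y^6 - 697680 * x^2 * y^5 + 581400 * x^3 * y^4 - 239400 * x^4 * y^3 + 47880 * x^5 * y^2 - 4200 * x^6 * y^1 + 120 * x^7)
      + (-522) * a^1 * b^5 * (-480700 * y^7 + 885500 * x^1 * y^6 - 531300 * x^2 * y^5 + 126500 * x^3 * y^4 - 11500 * x^4 * y^3 + 300 * x^5 * y^2)
      + (1) * b^6 * (-2035800 * y^7)
      = famBc (hH a b) (hT a b) 7 := by
  subst hx hy
  simp only [famBc, hH, hT]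
  ring

theorem hT_coef8 (a b x y : R) (hx : x = a^2 + 66*a*b - 11*b^2)
    (hy : y = 11*a^2 + 66*a*b - b^2) :
    (1) * a^6 * (5852925 * x^8)
      + (522) * a^5 * b^1 * (-2300 * x^3 * y^5 + 63250 * x^4 * y^4 - 531300 * x^5 * y^3 + 1771000 * x^6 * y^2 - 2403500 * x^7 * y^1 + 1081575 * x^8)
      + (-10005) * a^4 * b^2 * (45 * y^8 - 2400 * x^1 * y^7 + 39900 * x^2 * y^6 - 287280 * x^3 * y^5 + 1017450 * x^4 * y^4 - 1860480 * x^5 * y^3 + 1744200 * x^6 * y^2 - 775200 * x^7 * y^1 + 125970 * x^8)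
      + (-10005) * a^2 * b^4 * (125970 * y^8 - 775200 * x^1 * y^7 + 1744200 * x^2 * y^6 - 1860480 * x^3 * y^5 + 1017450 * x^4 * y^4 - 287280 * x^5 * y^3 + 39900 * x^6 * y^2 - 2400 * x^7 * y^1 + 45 * x^8)
      + (-522) * a^1 * b^5 * (1081575 * y^8 - 2403500 * x^1 * y^7 + 1771000 * x^2 * y^6 - 531300 * x^3 * y^5 + 63250 * x^4 * y^4 - 2300 * x^5 * y^3)
      + (1) * b^6 * (5852925 * y^8)
      = famBc (hH a b) (hT a b) 8 := by
  subst hx hy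
  simp only [famBc, hH, hT]
  ring

theorem hT_coef9 (a b x y : R) (hx : x = a^2 + 66*a*b - 11*b^2)
    (hy : y = 11*a^2 + 66*a*b - b^2) :
    (1) * a^6 * (14307150 * x^9)
      + (522) * a^5 * b^1 * (-12650 * x^4 * y^5 + 265650 * x^5 * y^4 - 1771000 * x^6 * y^3 + 4807000 * x^7 * y^2 - 5407875 * x^8 * y^1 + 2042975 * x^9)
      + (-10005) * a^4 * b^2 * (-10 * y^9 + 900 * x^1 * y^8 - 22800 * x^2 * y^7 + 239400 * x^3 * y^6 - 1220940 * x^4 * y^5 + 3255840 * x^5 * y^4 - 4651200 * x^6 * y^3 + 3488400 * x^7 * y^2 - 1259700 * x^8 * y^1 + 167960 * x^9)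
      + (-10005) * a^2 * b^4 * (-167960 * y^9 + 1259700 * x^1 * y^8 - 3488400 * x^2 * y^7 + 4651200 * x^3 * y^6 - 3255840 * x^4 * y^5 + 1220940 * x^5 * y^4 - 239400 * x^6 * y^3 + 22800 * x^7 * y^2 - 900 * x^8 * y^1 + 10 * x^9)
      + (-522) * a^1 * b^5 * (-2042975 * y^9 + 5407875 * x^1 * y^8 - 4807000 * x^2 * y^7 + 1771000 * x^3 * y^6 - 265650 * x^4 * y^5 + 12650 * x^5 * y^4)
      + (1) * b^6 * (-14307150 * y^9)
      = famBc (hH a b) (hT a b) 9 := by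
  subst hx hy
  simp only [famBc, hH, hT]
  ring

theorem hT_coef10 (a b x y : R) (hx : x = a^2 + 66*a*b - 11*b^2)
    (hy : y = 11*a^2 + 66*a*b - b^2) :
    (1) * a^6 * (30045015 * x^10)
      + (522) * a^5 * b^1 * (-53130 * x^5 * y^5 + 885500 * x^6 * y^4 - 4807000 * x^7 * y^3 + 10815750 * x^8 * y^2 - 10214875 * x^9 * y^1 + 3268760 * x^10)
      + (-10005) * a^4 * b^2 * (1 * y^10 - 200 * x^1 * y^9 + 8550 * x^2 * y^8 - 136800 * x^3 * y^7 + 1017450 * x^4 * y^6 - 3907008 * x^5 * y^5 + 8139600 * x^6 * y^4 - 9302400 * x^7 * y^3 + 5668650 * x^8 * y^2 - 1679600 * x^9 * y^1 + 184756 * x^10)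
      + (-10005) * a^2 * b^4 * (184756 * y^10 - 1679600 * x^1 * y^9 + 5668650 * x^2 * y^8 - 9302400 * x^3 * y^7 + 8139600 * x^4 * y^6 - 3907008 * x^5 * y^5 + 1017450 * x^6 * y^4 - 136800 * x^7 * y^3 + 8550 * x^8 * y^2 - 200 * x^9 * y^1 + 1 * x^10)
      + (-522) * a^1 * b^5 * (3268760 * y^10 - 10214875 * x^1 * y^9 + 10815750 * x^2 * y^8 - 4807000 * x^3 * y^7 + 885500 * x^4 * y^6 - 53130 * x^5 * y^5)
      + (1) * b^6 * (30045015 * y^10)
      = famBc (hH a b) (hT a b) 10 := by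
  subst hx hy
  simp only [famBc, hH, hT]
  ring

end Fermat.Agent.S52
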