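import Fermat.Agent.S52.Level5.InvDefs

/-!
# S52 / Level5: coefficients of `kT` along the covariant line (machine generated)
-/

namespace Fermat.Agent.S52

variable {R : Type*} [CommRing R]

theorem hT_coef11 (a b x y : R) (hx : x = a^2 + 66*a*b - 11*b^2)
    (hy : y = 11*a^2 + 66*a*b - b^2) :
    (1) * a^6 * (54627300 * x^11)
      + (522) * a^5 * b^1 * (-177100 * x^6 * y^5 + 2403500 * x^7 * y^4 - 10815750 * x^8 * y^3 + 20429750 * x^9 * y^2 - 16343800 * x^10 * y^1 + 4457400 * x^11)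
      + (-10005) * a^4 * b^2 * (20 * x^1 * y^10 - 1900 * x^2 * y^9 + 51300 * x^3 * y^8 - 581400 * x^4 * y^7 + 3255840 * x^5 * y^6 - 9767520 * x^6 * y^5 + 16279200 * x^7 * y^4 - 15116400 * x^8 * y^3 + 7558200 * x^9 * y^2 - 1847560 * x^10 * y^1 + 167960 * x^11)
      + (-10005) * a^2 * b^4 * (-167960 * y^11 + 1847560 * x^1 * y^10 - 7558200 * x^2 * y^9 + 15116400 * x^3 * y^8 - 16279200 * x^4 * y^7 + 9767520 * x^5 * y^6 - 3255840 * x^6 * y^5 + 581400 * x^7 * y^4 - 51300 * x^8 * y^3 + 1900 * x^9 * y^2 - 20 * x^10 * y^1)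
      + (-522) * a^1 * b^5 * (-4457400 * y^11 + 16343800 * x^1 * y^10 - 20429750 * x^2 * y^9 + 10815750 * x^3 * y^8 - 2403500 * x^4 * y^7 + 177100 * x^5 * y^6)
      + (1) * b^6 * (-54627300 * y^11)
      = famBc (hH a b) (hT a b) 11 := by
  subst hx hy
  simp only [famBc, hH, hT]
  ring

theorem hT_coef12 (a b x y : R) (hx : x = a^2 + 66*a*b - 11*b^2)
    (hy : y = 11*a^2 + 66*a*b - b^2) :
    (1) * a^6 * (86493225 * x^12)
      + (522) * a^5 * b^1 * (-480700 * x^7 * y^5 + 5407875 * x^8 * y^4 - 20429750 * x^9 * y^3 + 32687600 * x^10 * y^2 - 22287000 * x^11 * y^1 + 5200300 * x^12)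
      + (-10005) * a^4 * b^2 * (190 * x^2 * y^10 - 11400 * x^3 * y^9 + 218025 * x^4 * y^8 - 1860480 * x^5 * y^7 + 8139600 * x^6 * y^6 - 19535040 * x^7 * y^5 + 26453700 * x^8 * y^4 - 20155200 * x^9 * y^3 + 8314020 * x^10 * y^2 - 1679600 * x^11 * y^1 + 125970 * x^12)
      + (-10005) * a^2 * b^4 * (125970 * y^12 - 1679600 * x^1 * y^11 + 8314020 * x^2 * y^10 - 20155200 * x^3 * y^9 + 26453700 * x^4 * y^8 - 19535040 * x^5 * y^7 + 8139600 * x^6 * y^6 - 1860480 * x^7 * y^5 + 218025 * x^8 * y^4 - 11400 * x^9 * y^3 + 190 * x^10 * y^2)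
      + (-522) * a^1 * b^5 * (5200300 * y^12 - 22287000 * x^1 * y^11 + 32687600 * x^2 * y^10 - 20429750 * x^3 * y^9 + 5407875 * x^4 * y^8 - 480700 * x^5 * y^7)
      + (1) * b^6 * (86493225 * y^12)
      = famBc (hH a b) (hT a b) 12 := by
  subst hx hy
  simp only [famBc, hH, hT]
  ring

theorem hT_coef13 (a b x y : R) (hx : x = a^2 + 66*a*b - 11*b^2)
    (hy : y = 11*a^2 + 66*a*b - b^2) :
    (1) * a^6 * (119759850 * x^13)
      + (522) * a^5 * b^1 * (-1081575 * x^8 * y^5 + 10214875 * x^9 * y^4 - 32687600 * x^10 * y^3 + 44574000 * x^11 * y^2 - 26001500 * x^12 * y^1 + 5200300 * x^13)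
      + (-10005) * a^4 * b^2 * (1140 * x^3 * y^10 - 48450 * x^4 * y^9 + 697680 * x^5 * y^8 - 4651200 * x^6 * y^7 + 16279200 * x^7 * y^6 - 31744440 * x^8 * y^5 + 35271600 * x^9 * y^4 - 22170720 * x^10 * y^3 + 7558200 * x^11 * y^2 - 1259700 * x^12 * y^1 + 77520 * x^13)
      + (-10005) * a^2 * b^4 * (-77520 * y^13 + 1259700 * x^1 * y^12 - 7558200 * x^2 * y^11 + 22170720 * x^3 * y^10 - 35271600 * x^4 * y^9 + 31744440 * x^5 * y^8 - 16279200 * x^6 * y^7 + 4651200 * x^7 * y^6 - 697680 * x^8 * y^5 + 48450 * x^9 * y^4 - 1140 * x^10 * y^3)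
      + (-522) * a^1 * b^5 * (-5200300 * y^13 + 26001500 * x^1 * y^12 - 44574000 * x^2 * y^11 + 32687600 * x^3 * y^10 - 10214875 * x^4 * y^9 + 1081575 * x^5 * y^8)
      + (1) * b^6 * (-119759850 * y^13)
      = famBc (hH a b) (hT a b) 13 := by
  subst hx hy
  simp only [famBc, hH, hT]
  ring

theorem hT_coef14 (a b x y : R) (hx : x = a^2 + 66*a*b - 11*b^2)
    (hy : y = 11*a^2 + 66*a*b - b^2) :
    (1) * a^6 * (145422675 * x^14)
      + (522) * a^5 * b^1 * (-2042975 * x^9 * y^5 + 16343800 * x^10 * y^4 - 44574000 * x^11 * y^3 + 52003000 * x^12 * y^2 - 26001500 * x^13 * y^1 + 4457400 * x^14)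
      + (-10005) * a^4 * b^2 * (4845 * x^4 * y^10 - 155040 * x^5 * y^9 + 1744200 * x^6 * y^8 - 9302400 * x^7 * y^7 + 26453700 * x^8 * y^6 - 42325920 * x^9 * y^5 + 38798760 * x^10 * y^4 - 20155200 * x^11 * y^3 + 5668650 * x^12 * y^2 - 775200 * x^13 * y^1 + 38760 * x^14)
      + (-10005) * a^2 * b^4 * (38760 * y^14 - 775200 * x^1 * y^13 + 5668650 * x^2 * y^12 - 20155200 * x^3 * y^11 + 38798760 * x^4 * y^10 - 42325920 * x^5 * y^9 + 26453700 * x^6 * y^8 - 9302400 * x^7 * y^7 + 1744200 * x^8 * y^6 - 155040 * x^9 * y^5 + 4845 * x^10 * y^4)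
      + (-522) * a^1 * b^5 * (4457400 * y^14 - 26001500 * x^1 * y^13 + 52003000 * x^2 * y^12 - 44574000 * x^3 * y^11 + 16343800 * x^4 * y^10 - 2042975 * x^5 * y^9)
      + (1) * b^6 * (145422675 * y^14)
      = famBc (hH a b) (hT a b) 14 := by
  subst hx hy
  simp only [famBc, hH, hT]
  ring

theorem hT_coef15 (a b x y : R) (hx : x = a^2 + 66*a*b - 11*b^2)
    (hy : y = 11*a^2 + 66*a*b - b^2) :
    (1) * a^6 * (155117520 * x^15)
      + (522) * a^5 * b^1 * (-3268760 * x^10 * y^5 + 22287000 * x^11 * y^4 - 52003000 * x^12 * y^3 + 52003000 * x^13 * y^2 - 22287000 * x^14 * y^1 + 3268760 * x^15)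
      + (-10005) * a^4 * b^2 * (15504 * x^5 * y^10 - 387600 * x^6 * y^9 + 3488400 * x^7 * y^8 - 15116400 * x^8 * y^7 + 35271600 * x^9 * y^6 - 46558512 * x^10 * y^5 + 35271600 * x^11 * y^4 - 15116400 * x^12 * y^3 + 3488400 * x^13 * y^2 - 387600 * x^14 * y^1 + 15504 * x^15)
      + (-10005) * a^2 * b^4 * (-15504 * y^15 + 387600 * x^1 * y^14 - 3488400 * x^2 * y^13 + 15116400 * x^3 * y^12 - 35271600 * x^4 * y^11 + 46558512 * x^5 * y^10 - 35271600 * x^6 * y^9 + 15116400 * x^7 * y^8 - 3488400 * x^8 * y^7 + 387600 * x^9 * y^6 - 15504 * x^10 * y^5)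
      + (-522) * a^1 * b^5 * (-3268760 * y^15 + 22287000 * x^1 * y^14 - 52003000 * x^2 * y^13 + 52003000 * x^3 * y^12 - 22287000 * x^4 * y^11 + 3268760 * x^5 * y^10)
      + (1) * b^6 * (-155117520 * y^15)
      = famBc (hH a b) (hT a b) 15 := by
  subst hx hy
  simp only [famBc, hH, hT]
  ring

theorem hT_coef16 (a b x y : R) (hx : x = a^2 + 66*a*b - 11*b^2)
    (hy : y = 11*a^2 + 66*a*b - b^2) :
    (1) * a^6 * (145422675 * x^16)
      + (522) * a^5 * b^1 * (-4457400 * x^11 * y^5 + 26001500 * x^12 * y^4 - 52003000 * x^13 * y^3 + 44574000 * x^14 * y^2 - 16343800 * x^15 * y^1 + 2042975 * x^16)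
      + (-10005) * a^4 * b^2 * (38760 * x^6 * y^10 - 775200 * x^7 * y^9 + 5668650 * x^8 * y^8 - 20155200 * x^9 * y^7 + 38798760 * x^10 * y^6 - 42325920 * x^11 * y^5 + 26453700 * x^12 * y^4 - 9302400 * x^13 * y^3 + 1744200 * x^14 * y^2 - 155040 * x^15 * y^1 + 4845 * x^16)
      + (-10005) * a^2 * b^4 * (4845 * y^16 - 155040 * x^1 * y^15 + 1744200 * x^2 * y^14 - 9302400 * x^3 * y^13 + 26453700 * x^4 * y^12 - 42325920 * x^5 * y^11 + 38798760 * x^6 * y^10 - 20155200 * x^7 * y^9 + 5668650 * x^8 * y^8 - 775200 * x^9 * y^7 + 38760 * x^10 * y^6)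
      + (-522) * a^1 * b^5 * (2042975 * y^16 - 16343800 * x^1 * y^15 + 44574000 * x^2 * y^14 - 52003000 * x^3 * y^13 + 26001500 * x^4 * y^12 - 4457400 * x^5 * y^11)
      + (1) * b^6 * (145422675 * y^16)
      = famBc (hH a b) (hT a b) 16 := by
  subst hx hy
  simp only [famBc, hH, hT]
  ring

theorem hT_coef17 (a b x y : R) (hx : x = a^2 + 66*a*b - 11*b^2)
    (hy : y = 11*a^2 + 66*a*b - b^2) :
    (1) * a^6 * (119759850 * x^17)
      + (522) * a^5 * b^1 * (-5200300 * x^12 * y^5 + 26001500 * x^13 * y^4 - 44574000 * x^14 * y^3 + 32687600 * x^15 * y^2 - 10214875 * x^16 * y^1 + 1081575 * x^17)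
      + (-10005) * a^4 * b^2 * (77520 * x^7 * y^10 - 1259700 * x^8 * y^9 + 7558200 * x^9 * y^8 - 22170720 * x^10 * y^7 + 35271600 * x^11 * y^6 - 31744440 * x^12 * y^5 + 16279200 * x^13 * y^4 - 4651200 * x^14 * y^3 + 697680 * x^15 * y^2 - 48450 * x^16 * y^1 + 1140 * x^17)
      + (-10005) * a^2 * b^4 * (-1140 * y^17 + 48450 * x^1 * y^16 - 697680 * x^2 * y^15 + 4651200 * x^3 * y^14 - 16279200 * x^4 * y^13 + 31744440 * x^5 * y^12 - 35271600 * x^6 * y^11 + 22170720 * x^7 * y^10 - 7558200 * x^8 * y^9 + 1259700 * x^9 * y^8 - 77520 * x^10 * y^7)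
      + (-522) * a^1 * b^5 * (-1081575 * y^17 + 10214875 * x^1 * y^16 - 32687600 * x^2 * y^15 + 44574000 * x^3 * y^14 - 26001500 * x^4 * y^13 + 5200300 * x^5 * y^12)
      + (1) * b^6 * (-119759850 * y^17)
      = famBc (hH a b) (hT a b) 17 := by
  subst hx hy
  simp only [famBc, hH, hT]
  ring

theorem hT_coef18 (a b x y : R) (hx : x = a^2 + 66*a*b - 11*b^2)
    (hy : y = 11*a^2 + 66*a*b - b^2) :
    (1) * a^6 * (86493225 * x^18)
      + (522) * a^5 * b^1 * (-5200300 * x^13 * y^5 + 22287000 * x^14 * y^4 - 32687600 * x^15 * y^3 + 20429750 * x^16 * y^2 - 5407875 * x^17 * y^1 + 480700 * x^18)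
      + (-10005) * a^4 * b^2 * (125970 * x^8 * y^10 - 1679600 * x^9 * y^9 + 8314020 * x^10 * y^8 - 20155200 * x^11 * y^7 + 26453700 * x^12 * y^6 - 19535040 * x^13 * y^5 + 8139600 * x^14 * y^4 - 1860480 * x^15 * y^3 + 218025 * x^16 * y^2 - 11400 * x^17 * y^1 + 190 * x^18)
      + (-10005) * a^2 * b^4 * (190 * y^18 - 11400 * x^1 * y^17 + 218025 * x^2 * y^16 - 1860480 * x^3 * y^15 + 8139600 * x^4 * y^14 - 19535040 * x^5 * y^13 + 26453700 * x^6 * y^12 - 20155200 * x^7 * y^11 + 8314020 * x^8 * y^10 - 1679600 * x^9 * y^9 + 125970 * x^10 * y^8)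
      + (-522) * a^1 * b^5 * (480700 * y^18 - 5407875 * x^1 * y^17 + 20429750 * x^2 * y^16 - 32687600 * x^3 * y^15 + 22287000 * x^4 * y^14 - 5200300 * x^5 * y^13)
      + (1) * b^6 * (86493225 * y^18)
      = famBc (hH a b) (hT a b) 18 := by
  subst hx hy
  simp only [famBc, hH, hT]
  ring

theorem hT_coef19 (a b x y : R) (hx : x = a^2 + 66*a*b - 11*b^2)
    (hy : y = 11*a^2 + 66*a*b - b^2) :
    (1) * a^6 * (54627300 * x^19)
      + (522) * a^5 * b^1 * (-4457400 * x^14 * y^5 + 16343800 * x^15 * y^4 - 20429750 * x^16 * y^3 + 10815750 * x^17 * y^2 - 2403500 * x^18 * y^1 + 177100 * x^19)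
      + (-10005) * a^4 * b^2 * (167960 * x^9 * y^10 - 1847560 * x^10 * y^9 + 7558200 * x^11 * y^8 - 15116400 * x^12 * y^7 + 16279200 * x^13 * y^6 - 9767520 * x^14 * y^5 + 3255840 * x^15 * y^4 - 581400 * x^16 * y^3 + 51300 * x^17 * y^2 - 1900 * x^18 * y^1 + 20 * x^19)
      + (-10005) * a^2 * b^4 * (-20 * y^19 + 1900 * x^1 * y^18 - 51300 * x^2 * y^17 + 581400 * x^3 * y^16 - 3255840 * x^4 * y^15 + 9767520 * x^5 * y^14 - 16279200 * x^6 * y^13 + 15116400 * x^7 * y^12 - 7558200 * x^8 * y^11 + 1847560 * x^9 * y^10 - 167960 * x^10 * y^9)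
      + (-522) * a^1 * b^5 * (-177100 * y^19 + 2403500 * x^1 * y^18 - 10815750 * x^2 * y^17 + 20429750 * x^3 * y^16 - 16343800 * x^4 * y^15 + 4457400 * x^5 * y^14)
      + (1) * b^6 * (-54627300 * y^19)
      = famBc (hH a b) (hT a b) 19 := by
  subst hx hy
  simp only [famBc, hH, hT]
  ring

theorem hT_coef20 (a b x y : R) (hx : x = a^2 + 66*a*b - 11*b^2)
    (hy : y = 11*a^2 + 66*a*b - b^2) :
    (1) * a^6 * (30045015 * x^20)
      + (522) * a^5 * b^1 * (-3268760 * x^15 * y^5 + 10214875 * x^16 * y^4 - 10815750 * x^17 * y^3 + 4807000 * x^18 * y^2 - 885500 * x^19 * y^1 + 53130 * x^20)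
      + (-10005) * a^4 * b^2 * (184756 * x^10 * y^10 - 1679600 * x^11 * y^9 + 5668650 * x^12 * y^8 - 9302400 * x^13 * y^7 + 8139600 * x^14 * y^6 - 3907008 * x^15 * y^5 + 1017450 * x^16 * y^4 - 136800 * x^17 * y^3 + 8550 * x^18 * y^2 - 200 * x^19 * y^1 + 1 * x^20)
      + (-10005) * a^2 * b^4 * (1 * y^20 - 200 * x^1 * y^19 + 8550 * x^2 * y^18 - 136800 * x^3 * y^17 + 1017450 * x^4 * y^16 - 3907008 * x^5 * y^15 + 8139600 * x^6 * y^14 - 9302400 * x^7 * y^13 + 5668650 * x^8 * y^12 - 1679600 * x^9 * y^11 + 184756 * x^10 * y^10)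
      + (-522) * a^1 * b^5 * (53130 * y^20 - 885500 * x^1 * y^19 + 4807000 * x^2 * y^18 - 10815750 * x^3 * y^17 + 10214875 * x^4 * y^16 - 3268760 * x^5 * y^15)
      + (1) * b^6 * (30045015 * y^20)
      = famBc (hH a b) (hT a b) 20 := by
  subst hx hy
  simp only [famBc, hH, hT]
  ring

end Fermat.Agent.S52
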