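import Fermat.Agent.S52.Level5.InvDefs

/-!
# S52 / Level5: coefficients of `kT` along the covariant line (machine generated)
-/

namespace Fermat.Agent.S52

variable {R : Type*} [CommRing R]

theorem hT_coef21 (a b x y : R) (hx : x = a^2 + 66*a*b - 11*b^2)
    (hy : y = 11*a^2 + 66*a*b - b^2) :
    (1) * a^6 * (14307150 * x^21)
      + (522) * a^5 * b^1 * (-2042975 * x^16 * y^5 + 5407875 * x^17 * y^4 - 4807000 * x^18 * y^3 + 1771000 * x^19 * y^2 - 265650 * x^20 * y^1 + 12650 * x^21)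
      + (-10005) * a^4 * b^2 * (167960 * x^11 * y^10 - 1259700 * x^12 * y^9 + 3488400 * x^13 * y^8 - 4651200 * x^14 * y^7 + 3255840 * x^15 * y^6 - 1220940 * x^16 * y^5 + 239400 * x^17 * y^4 - 22800 * x^18 * y^3 + 900 * x^19 * y^2 - 10 * x^20 * y^1)
      + (-10005) * a^2 * b^4 * (10 * x^1 * y^20 - 900 * x^2 * y^19 + 22800 * x^3 * y^18 - 239400 * x^4 * y^17 + 1220940 * x^5 * y^16 - 3255840 * x^6 * y^15 + 4651200 * x^7 * y^14 - 3488400 * x^8 * y^13 + 1259700 * x^9 * y^12 - 167960 * x^10 * y^11)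
      + (-522) * a^1 * b^5 * (-12650 * y^21 + 265650 * x^1 * y^20 - 1771000 * x^2 * y^19 + 4807000 * x^3 * y^18 - 5407875 * x^4 * y^17 + 2042975 * x^5 * y^16)
      + (1) * b^6 * (-14307150 * y^21)
      = famBc (hH a b) (hT a b) 21 := by
  subst hx hy
  simp only [famBc, hH, hT]
  ring

theorem hT_coef22 (a b x y : R) (hx : x = a^2 + 66*a*b - 11*b^2)
    (hy : y = 11*a^2 + 66*a*b - b^2) :
    (1) * a^6 * (5852925 * x^22)
      + (522) * a^5 * b^1 * (-1081575 * x^17 * y^5 + 2403500 * x^18 * y^4 - 1771000 * x^19 * y^3 + 531300 * x^20 * y^2 - 63250 * x^21 * y^1 + 2300 * x^22)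
      + (-10005) * a^4 * b^2 * (125970 * x^12 * y^10 - 775200 * x^13 * y^9 + 1744200 * x^14 * y^8 - 1860480 * x^15 * y^7 + 1017450 * x^16 * y^6 - 287280 * x^17 * y^5 + 39900 * x^18 * y^4 - 2400 * x^19 * y^3 + 45 * x^20 * y^2)
      + (-10005) * a^2 * b^4 * (45 * x^2 * y^20 - 2400 * x^3 * y^19 + 39900 * x^4 * y^18 - 287280 * x^5 * y^17 + 1017450 * x^6 * y^16 - 1860480 * x^7 * y^15 + 1744200 * x^8 * y^14 - 775200 * x^9 * y^13 + 125970 * x^10 * y^12)
      + (-522) * a^1 * b^5 * (2300 * y^22 - 63250 * x^1 * y^21 + 531300 * x^2 * y^20 - 1771000 * x^3 * y^19 + 2403500 * x^4 * y^18 - 1081575 * x^5 * y^17)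
      + (1) * b^6 * (5852925 * y^22)
      = famBc (hH a b) (hT a b) 22 := by
  subst hx hy
  simp only [famBc, hH, hT]
  ring

theorem hT_coef23 (a b x y : R) (hx : x = a^2 + 66*a*b - 11*b^2)
    (hy : y = 11*a^2 + 66*a*b - b^2) :
    (1) * a^6 * (2035800 * x^23)
      + (522) * a^5 * b^1 * (-480700 * x^18 * y^5 + 885500 * x^19 * y^4 - 531300 * x^20 * y^3 + 126500 * x^21 * y^2 - 11500 * x^22 * y^1 + 300 * x^23)
      + (-10005) * a^4 * b^2 * (77520 * x^13 * y^10 - 387600 * x^14 * y^9 + 697680 * x^15 * y^8 - 581400 * x^16 * y^7 + 239400 * x^17 * y^6 - 47880 * x^18 * y^5 + 4200 * x^19 * y^4 - 120 * x^20 * y^3)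
      + (-10005) * a^2 * b^4 * (120 * x^3 * y^20 - 4200 * x^4 * y^19 + 47880 * x^5 * y^18 - 239400 * x^6 * y^17 + 581400 * x^7 * y^16 - 697680 * x^8 * y^15 + 387600 * x^9 * y^14 - 77520 * x^10 * y^13)
      + (-522) * a^1 * b^5 * (-300 * y^23 + 11500 * x^1 * y^22 - 126500 * x^2 * y^21 + 531300 * x^3 * y^20 - 885500 * x^4 * y^19 + 480700 * x^5 * y^18)
      + (1) * b^6 * (-2035800 * y^23)
      = famBc (hH a b) (hT a b) 23 := by
  subst hx hy
  simp only [famBc, hH, hT]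
  ring

theorem hT_coef24 (a b x y : R) (hx : x = a^2 + 66*a*b - 11*b^2)
    (hy : y = 11*a^2 + 66*a*b - b^2) :
    (1) * a^6 * (593775 * x^24)
      + (522) * a^5 * b^1 * (-177100 * x^19 * y^5 + 265650 * x^20 * y^4 - 126500 * x^21 * y^3 + 23000 * x^22 * y^2 - 1500 * x^23 * y^1 + 25 * x^24)
      + (-10005) * a^4 * b^2 * (38760 * x^14 * y^10 - 155040 * x^15 * y^9 + 218025 * x^16 * y^8 - 136800 * x^17 * y^7 + 39900 * x^18 * y^6 - 5040 * x^19 * y^5 + 210 * x^20 * y^4)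
      + (-10005) * a^2 * b^4 * (210 * x^4 * y^20 - 5040 * x^5 * y^19 + 39900 * x^6 * y^18 - 136800 * x^7 * y^17 + 218025 * x^8 * y^16 - 155040 * x^9 * y^15 + 38760 * x^10 * y^14)
      + (-522) * a^1 * b^5 * (25 * y^24 - 1500 * x^1 * y^23 + 23000 * x^2 * y^22 - 126500 * x^3 * y^21 + 265650 * x^4 * y^20 - 177100 * x^5 * y^19)
      + (1) * b^6 * (593775 * y^24)
      = famBc (hH a b) (hT a b) 24 := by
  subst hx hy
  simp only [famBc, hH, hT]
  ring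

theorem hT_coef25 (a b x y : R) (hx : x = a^2 + 66*a*b - 11*b^2)
    (hy : y = 11*a^2 + 66*a*b - b^2) :
    (1) * a^6 * (142506 * x^25)
      + (522) * a^5 * b^1 * (-53130 * x^20 * y^5 + 63250 * x^21 * y^4 - 23000 * x^22 * y^3 + 3000 * x^23 * y^2 - 125 * x^24 * y^1 + 1 * x^25)
      + (-10005) * a^4 * b^2 * (15504 * x^15 * y^10 - 48450 * x^16 * y^9 + 51300 * x^17 * y^8 - 22800 * x^18 * y^7 + 4200 * x^19 * y^6 - 252 * x^20 * y^5)
      + (-10005) * a^2 * b^4 * (252 * x^5 * y^20 - 4200 * x^6 * y^19 + 22800 * x^7 * y^18 - 51300 * x^8 * y^17 + 48450 * x^9 * y^16 - 15504 * x^10 * y^15)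
      + (-522) * a^1 * b^5 * (-1 * y^25 + 125 * x^1 * y^24 - 3000 * x^2 * y^23 + 23000 * x^3 * y^22 - 63250 * x^4 * y^21 + 53130 * x^5 * y^20)
      + (1) * b^6 * (-142506 * y^25)
      = famBc (hH a b) (hT a b) 25 := by
  subst hx hy
  simp only [famBc, hH, hT]
  ring

theorem hT_coef26 (a b x y : R) (hx : x = a^2 + 66*a*b - 11*b^2)
    (hy : y = 11*a^2 + 66*a*b - b^2) :
    (1) * a^6 * (27405 * x^26)
      + (522) * a^5 * b^1 * (-12650 * x^21 * y^5 + 11500 * x^22 * y^4 - 3000 * x^23 * y^3 + 250 * x^24 * y^2 - 5 * x^25 * y^1)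
      + (-10005) * a^4 * b^2 * (4845 * x^16 * y^10 - 11400 * x^17 * y^9 + 8550 * x^18 * y^8 - 2400 * x^19 * y^7 + 210 * x^20 * y^6)
      + (-10005) * a^2 * b^4 * (210 * x^6 * y^20 - 2400 * x^7 * y^19 + 8550 * x^8 * y^18 - 11400 * x^9 * y^17 + 4845 * x^10 * y^16)
      + (-522) * a^1 * b^5 * (-5 * x^1 * y^25 + 250 * x^2 * y^24 - 3000 * x^3 * y^23 + 11500 * x^4 * y^22 - 12650 * x^5 * y^21)
      + (1) * b^6 * (27405 * y^26)
      = famBc (hH a b) (hT a b) 26 := by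
  subst hx hy
  simp only [famBc, hH, hT]
  ring

theorem hT_coef27 (a b x y : R) (hx : x = a^2 + 66*a*b - 11*b^2)
    (hy : y = 11*a^2 + 66*a*b - b^2) :
    (1) * a^6 * (4060 * x^27)
      + (522) * a^5 * b^1 * (-2300 * x^22 * y^5 + 1500 * x^23 * y^4 - 250 * x^24 * y^3 + 10 * x^25 * y^2)
      + (-10005) * a^4 * b^2 * (1140 * x^17 * y^10 - 1900 * x^18 * y^9 + 900 * x^19 * y^8 - 120 * x^20 * y^7)
      + (-10005) * a^2 * b^4 * (120 * x^7 * y^20 - 900 * x^8 * y^19 + 1900 * x^9 * y^18 - 1140 * x^10 * y^17)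
      + (-522) * a^1 * b^5 * (-10 * x^2 * y^25 + 250 * x^3 * y^24 - 1500 * x^4 * y^23 + 2300 * x^5 * y^22)
      + (1) * b^6 * (-4060 * y^27)
      = famBc (hH a b) (hT a b) 27 := by
  subst hx hy
  simp only [famBc, hH, hT]
  ring

theorem hT_coef28 (a b x y : R) (hx : x = a^2 + 66*a*b - 11*b^2)
    (hy : y = 11*a^2 + 66*a*b - b^2) :
    (1) * a^6 * (435 * x^28)
      + (522) * a^5 * b^1 * (-300 * x^23 * y^5 + 125 * x^24 * y^4 - 10 * x^25 * y^3)
      + (-10005) * a^4 * b^2 * (190 * x^18 * y^10 - 200 * x^19 * y^9 + 45 * x^20 * y^8)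
      + (-10005) * a^2 * b^4 * (45 * x^8 * y^20 - 200 * x^9 * y^19 + 190 * x^10 * y^18)
      + (-522) * a^1 * b^5 * (-10 * x^3 * y^25 + 125 * x^4 * y^24 - 300 * x^5 * y^23)
      + (1) * b^6 * (435 * y^28)
      = famBc (hH a b) (hT a b) 28 := by
  subst hx hy
  simp only [famBc, hH, hT]
  ring

theorem hT_coef29 (a b x y : R) (hx : x = a^2 + 66*a*b - 11*b^2)
    (hy : y = 11*a^2 + 66*a*b - b^2) :
    (1) * a^6 * (30 * x^29)
      + (522) * a^5 * b^1 * (-25 * x^24 * y^5 + 5 * x^25 * y^4)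
      + (-10005) * a^4 * b^2 * (20 * x^19 * y^10 - 10 * x^20 * y^9)
      + (-10005) * a^2 * b^4 * (10 * x^9 * y^20 - 20 * x^10 * y^19)
      + (-522) * a^1 * b^5 * (-5 * x^4 * y^25 + 25 * x^5 * y^24)
      + (1) * b^6 * (-30 * y^29)
      = famBc (hH a b) (hT a b) 29 := by
  subst hx hy
  simp only [famBc, hH, hT]
  ring

theorem hT_coef30 (a b x y : R) (hx : x = a^2 + 66*a*b - 11*b^2)
    (hy : y = 11*a^2 + 66*a*b - b^2) :
    (1) * a^6 * (1 * x^30)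
      + (522) * a^5 * b^1 * (-1 * x^25 * y^5)
      + (-10005) * a^4 * b^2 * (1 * x^20 * y^10)
      + (-10005) * a^2 * b^4 * (1 * x^10 * y^20)
      + (-522) * a^1 * b^5 * (-1 * x^5 * y^25)
      + (1) * b^6 * (1 * y^30)
      = famBc (hH a b) (hT a b) 30 := by
  subst hx hy
  simp only [famBc, hH, hT]
  ring

end Fermat.Agent.S52
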